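import Fermat.Agent.AlgebraicHecke.LSeries
import Fermat.Agent.PrimeEquidist.Circle

/-!
# The angles of algebraic Hecke characters

Powers of an algebraic character are algebraic; so the angles are equidistributed when no positive
power is a power of the norm.
-/

set_option autoImplicit false
set_option linter.unusedSectionVars false

noncomputable section

open NumberField IsDedekindDomain Ideal Filter Topology
open FA.Hecke (HasMean)
open FA.PrimeEquidist
open FA.IdeleClass (normTwist normTwist_apply)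
open scoped Classical

namespace FA.AlgHecke

variable {K : Type*} [Field K] [NumberField K] {𝔪 : Ideal (𝓞 K)} {n : (K →+* ℂ) → ℤ}
  {f : Ideal (𝓞 K) →* ℂ} {w : ℤ}

theorem powComp_apply (f : Ideal (𝓞 K) →* ℂ) (j : ℕ) (I : Ideal (𝓞 K)) :
    (powMonoidHom j).comp f I = f I ^ j := rfl

theorem IsAlgChar.powComp (h : IsAlgChar 𝔪 n f) {j : ℕ} (hj : j ≠ 0) :
    IsAlgChar 𝔪 (fun σ => (j : ℤ) * n σ) ((powMonoidHom j).comp f) := by
  refine ⟨h.ne_bot, fun I hI => ?_, fun x hx => ?_⟩
  · rw [powComp_apply, ne_eq, pow_eq_zero_iff hj]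
    exact h.ne_zero_iff I hI
  · rw [powComp_apply, h.ray x hx, typeVal, typeVal, ← Finset.prod_pow]
    exact Finset.prod_congr rfl fun σ _ => by rw [← zpow_natCast, ← zpow_mul, mul_comm]

theorem isPure_mul (hw : IsPure n w) (j : ℕ) :
    IsPure (fun σ => (j : ℤ) * n σ) ((j : ℤ) * w) := fun σ => by
  rw [← hw σ, mul_add]

theorem finite_primes_dividing (h𝔪 : 𝔪 ≠ ⊥) :
    {v : HeightOneSpectrum (𝓞 K) | v.asIdeal ⊔ 𝔪 ≠ ⊤}.Finite :=
  (Ideal.finite_factors h𝔪).subset fun v hv =>
    Ideal.dvd_iff_le.2 (le_sup_right.trans (v.isMaximal.eq_of_le hv le_sup_left).ge)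

/-- The normalised values have absolute value one off the modulus. -/
theorem IsAlgChar.norm_unit (h : IsAlgChar 𝔪 n f) (hw : IsPure n w)
    {v : HeightOneSpectrum (𝓞 K)} (hv : v.asIdeal ⊔ 𝔪 = ⊤) :
    ‖f v.asIdeal * ((absNorm v.asIdeal : ℕ) : ℂ) ^ (-((w : ℂ) / 2))‖ = 1 :=
  (h.torus hw).norm_eq_one v.ne_bot (((h.torus hw).ne_zero_iff _ v.ne_bot).2 hv)

/-- **The angles are equidistributed unless a positive power is a power of the norm.** -/
theorem IsAlgChar.equidistributed (h : IsAlgChar 𝔪 n f) (hw : IsPure n w)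
    (hne : ∀ j : ℕ, j ≠ 0 → ¬IsNormPower ((powMonoidHom j).comp f)) :
    Equidistributed AddCircle.haarAddCircle fun v : HeightOneSpectrum (𝓞 K) =>
      circlePoint (f v.asIdeal * ((absNorm v.asIdeal : ℕ) : ℂ) ^ (-((w : ℂ) / 2))) := by
  refine equidistributed_angles (finite_primes_dividing h.ne_bot) (fun v => ?_)
    (fun v hv => h.norm_unit hw (not_not.1 hv)) fun j hj => ?_
  · exact (h.torus hw).norm_le v.ne_bot
  · convert (h.powComp hj).hasMean_zero (isPure_mul hw j) (hne j hj) using 2 with v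
    rw [powComp_apply, mul_pow, ← Complex.cpow_nat_mul]
    congr 2
    push_cast
    ring

end FA.AlgHecke

end
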