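import Fermat.Agent.HeckeTorus.Exists
import Fermat.Agent.IdeleClass.LSeries

/-!
# Algebraic characters of the ideals

For integers `n_σ` at the complex embeddings, a character of type `n` modulo `𝔪` takes the value
`∏ σ(x) ^ n_σ` at `(x)` for totally positive `x ≡ 1`.  By Dirichlet's unit theorem `n_σ + n_σ̄` is
then a constant `w`, and the character is `N ^ (w / 2)` times one of a unitary infinity type.
-/

set_option autoImplicit false
set_option linter.unusedSectionVars false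

noncomputable section

open NumberField NumberField.InfinitePlace Module Ideal Finset
open NumberField.Units (logEmbedding unitLattice sum_mult_mul_log)
open NumberField.Units.dirichletUnitTheorem (logSpace w₀ unitLattice_span_eq_top)
open FA.Ext (intEmb)
open FA.Hecke (IsRayElt ray_pow unitCount unitCount_pos)
open FA.HeckeTorus (infChar IsTorusChar Balanced balanced_zero exists_isTorusChar)
open FA.IdeleClass (normTwist normTwist_apply)
open scoped nonZeroDivisors Classical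

namespace FA.AlgHecke

variable {K : Type*} [Field K] [NumberField K]

/-- `∏ σ(x) ^ n_σ`. -/
def typeVal (n : (K →+* ℂ) → ℤ) (x : K) : ℂ := ∏ σ : K →+* ℂ, σ x ^ n σ

theorem typeVal_one (n : (K →+* ℂ) → ℤ) : typeVal n 1 = 1 := by simp [typeVal]

theorem typeVal_mul (n : (K →+* ℂ) → ℤ) (x y : K) :
    typeVal n (x * y) = typeVal n x * typeVal n y := by
  simp only [typeVal, map_mul, mul_zpow, Finset.prod_mul_distrib]

theorem typeVal_ne_zero (n : (K →+* ℂ) → ℤ) {x : K} (hx : x ≠ 0) : typeVal n x ≠ 0 :=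
  Finset.prod_ne_zero_iff.2 fun σ _ => zpow_ne_zero _ ((map_ne_zero σ).2 hx)

theorem typeVal_pow (n : (K →+* ℂ) → ℤ) (x : K) (j : ℕ) :
    typeVal n (x ^ j) = typeVal n x ^ j := by
  induction j with
  | zero => rw [pow_zero, pow_zero, typeVal_one]
  | succ j ih => rw [pow_succ, pow_succ, typeVal_mul, ih]

/-- `n_σ + n_σ̄ = w`. -/
def IsPure (n : (K →+* ℂ) → ℤ) (w : ℤ) : Prop :=
  ∀ σ : K →+* ℂ, n σ + n (ComplexEmbedding.conjugate σ) = w

/-- **An algebraic character of type `n` modulo `𝔪` and the real places.** -/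
structure IsAlgChar (𝔪 : Ideal (𝓞 K)) (n : (K →+* ℂ) → ℤ) (f : Ideal (𝓞 K) →* ℂ) : Prop where
  ne_bot : 𝔪 ≠ ⊥
  ne_zero_iff : ∀ I : Ideal (𝓞 K), I ≠ ⊥ → (f I ≠ 0 ↔ I ⊔ 𝔪 = ⊤)
  ray : ∀ x : 𝓞 K, IsRayElt 𝔪 x → f (Ideal.span {x}) = typeVal n (x : K)

/-- `∏ σ(u) ^ n_σ = 1` at the totally positive units congruent to `1`. -/
def UnitTrivial (𝔪 : Ideal (𝓞 K)) (n : (K →+* ℂ) → ℤ) : Prop :=
  ∀ u : (𝓞 K)ˣ, IsRayElt 𝔪 (u : 𝓞 K) → typeVal n ((u : 𝓞 K) : K) = 1

theorem IsAlgChar.unitTrivial {𝔪 : Ideal (𝓞 K)} {n : (K →+* ℂ) → ℤ} {f : Ideal (𝓞 K) →* ℂ}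
    (h : IsAlgChar 𝔪 n f) : UnitTrivial 𝔪 n := fun u hu => by
  rw [← h.ray _ hu, Ideal.span_singleton_eq_top.mpr u.isUnit, ← Ideal.one_eq_top, _root_.map_one]

/-! ### Purity -/

/-- The embeddings over a place. -/
theorem filter_mk_eq (w : InfinitePlace K) :
    (univ.filter fun φ : K →+* ℂ => InfinitePlace.mk φ = w) =
      {w.embedding, ComplexEmbedding.conjugate w.embedding} := by
  ext φ
  rw [Finset.mem_filter, Finset.mem_insert, Finset.mem_singleton,
    and_iff_right (Finset.mem_univ φ)]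
  constructor
  · rintro rfl
    rcases embedding_mk_eq φ with h | h
    · exact Or.inl h.symm
    · exact Or.inr (by rw [h, ComplexEmbedding.conjugate, ComplexEmbedding.conjugate, star_star])
  · rintro (rfl | rfl)
    · exact mk_embedding w
    · rw [mk_conjugate_eq, mk_embedding]

theorem norm_unit_typeVal {𝔪 : Ideal (𝓞 K)} {n : (K →+* ℂ) → ℤ} (h𝔪 : 𝔪 ≠ ⊥)
    (h : UnitTrivial 𝔪 n) (u : (𝓞 K)ˣ) : ∏ σ : K →+* ℂ, ‖σ (u : K)‖ ^ n σ = 1 := by
  obtain ⟨h0, h1, h2⟩ := ray_pow h𝔪 u.ne_zero (by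
    rw [Ideal.span_singleton_eq_top.mpr u.isUnit, top_sup_eq])
  have h3 := h (u ^ (2 * unitCount 𝔪)) ⟨by simp, by simpa using h1, fun φ => by simpa using h2 φ⟩
  simp only [Units.val_pow_eq_pow_val, map_pow, typeVal_pow] at h3
  have h4 := Complex.norm_eq_one_of_pow_eq_one h3
    (Nat.mul_pos two_pos (unitCount_pos h𝔪)).ne'
  rw [typeVal, norm_prod] at h4
  simpa only [norm_zpow] using h4

theorem sum_log_embeddings (F : InfinitePlace K → ℝ) (x : K) :
    ∑ σ : K →+* ℂ, F (InfinitePlace.mk σ) * Real.log ‖σ x‖ =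
      ∑ w : InfinitePlace K, F w * ((w.mult : ℝ) * Real.log (w x)) := by
  rw [← Finset.sum_fiberwise univ InfinitePlace.mk
    fun σ : K →+* ℂ => F (InfinitePlace.mk σ) * Real.log ‖σ x‖]
  refine Finset.sum_congr rfl fun w _ => ?_
  rw [Finset.sum_congr rfl fun σ hσ => show F (InfinitePlace.mk σ) * Real.log ‖σ x‖ =
      F w * Real.log (w x) by rw [← (Finset.mem_filter.1 hσ).2, InfinitePlace.apply],
    Finset.sum_const, card_filter_mk_eq, nsmul_eq_mul]
  ring

/-- **Purity**, by the theorem of Dirichlet. -/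
theorem exists_isPure {𝔪 : Ideal (𝓞 K)} {n : (K →+* ℂ) → ℤ} (h𝔪 : 𝔪 ≠ ⊥)
    (h : UnitTrivial 𝔪 n) : ∃ w : ℤ, IsPure n w := by
  set m : (K →+* ℂ) → ℤ := fun σ => n σ + n (ComplexEmbedding.conjugate σ) with hm
  set F : InfinitePlace K → ℝ := fun w => (m w.embedding : ℝ) with hF
  have hmk : ∀ σ : K →+* ℂ, (m σ : ℝ) = F (InfinitePlace.mk σ) := fun σ => by
    rcases embedding_mk_eq σ with e | e
    · simp only [hF, e]
    · simp only [hF, e, hm, show ComplexEmbedding.conjugate (ComplexEmbedding.conjugate σ) = σ from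
        star_star σ]
      push_cast
      ring
  have hkey : ∀ u : (𝓞 K)ˣ,
      ∑ w : InfinitePlace K, F w * ((w.mult : ℝ) * Real.log (w (u : K))) = 0 := fun u => by
    have hu : (u : K) ≠ 0 := by simp
    have h1 : ∑ σ : K →+* ℂ, (n σ : ℝ) * Real.log ‖σ (u : K)‖ = 0 := by
      have h2 := congrArg Real.log (norm_unit_typeVal h𝔪 h u)
      rw [Real.log_one, Real.log_prod fun σ _ => zpow_ne_zero _ (norm_ne_zero_iff.2
        ((map_ne_zero σ).2 hu))] at h2
      simpa only [Real.log_zpow] using h2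
    have h2 : ∑ σ : K →+* ℂ,
        (n (ComplexEmbedding.conjugate σ) : ℝ) * Real.log ‖σ (u : K)‖ = 0 := by
      refine Eq.trans ?_ h1
      refine Fintype.sum_equiv
        (Function.Involutive.toPerm _ (ComplexEmbedding.involutive_conjugate K)) _ _ fun σ => ?_
      rw [Function.Involutive.coe_toPerm, ComplexEmbedding.conjugate_coe_eq, Complex.norm_conj]
    rw [← sum_log_embeddings]
    simp only [← hmk, hm, Int.cast_add, add_mul, Finset.sum_add_distrib, h1, h2, add_zero]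
  refine ⟨m (w₀ : InfinitePlace K).embedding, fun σ => ?_⟩
  have hconst : ∀ w : InfinitePlace K, F w = F w₀ := by
    intro w
    by_cases hw : w = w₀
    · rw [hw]
    let L : logSpace K →ₗ[ℝ] ℝ :=
      ∑ v : {v : InfinitePlace K // v ≠ w₀}, (F v.1 - F w₀) • LinearMap.proj v
    have hL : Submodule.span ℝ (unitLattice K : Set (logSpace K)) ≤ LinearMap.ker L := by
      rw [Submodule.span_le]
      rintro _ ⟨u, -, rfl⟩
      obtain ⟨u, rfl⟩ := Additive.ofMul.surjective u
      show L (logEmbedding K (Additive.ofMul u)) = 0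
      simp only [L, LinearMap.coe_sum, Finset.sum_apply, LinearMap.smul_apply, LinearMap.coe_proj,
        Function.eval, smul_eq_mul,
        NumberField.Units.dirichletUnitTheorem.logEmbedding_component]
      have h1 := hkey u
      have h2 := sum_mult_mul_log u
      rw [Fintype.sum_eq_add_sum_subtype_ne _ (w₀ : InfinitePlace K)] at h1 h2
      simp only [sub_mul, Finset.sum_sub_distrib, ← Finset.mul_sum]
      linear_combination h1 - F w₀ * h2
    rw [unitLattice_span_eq_top] at hL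
    have h3 := hL (Submodule.mem_top (x := Pi.single ⟨w, hw⟩ (1 : ℝ)))
    simp only [LinearMap.mem_ker, L, LinearMap.coe_sum, Finset.sum_apply, LinearMap.smul_apply,
      LinearMap.coe_proj, Function.eval, smul_eq_mul, Pi.single_apply, mul_ite, mul_one, mul_zero,
      Finset.sum_ite_eq', Finset.mem_univ, if_true] at h3
    exact sub_eq_zero.1 h3
  exact Int.cast_injective (α := ℝ) ((hmk σ).trans (hconst _))

/-! ### The unitary part -/

/-- The unitary exponents. -/
def kOf (n : (K →+* ℂ) → ℤ) (w : {w : InfinitePlace K // IsComplex w}) : ℤ :=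
  n w.1.embedding - n (ComplexEmbedding.conjugate w.1.embedding)

/-- A product of norms is a power of the absolute norm. -/
theorem prod_norm_eq (x : 𝓞 K) :
    ∏ σ : K →+* ℂ, ‖σ (x : K)‖ = ((Ideal.absNorm (Ideal.span {x}) : ℕ) : ℝ) := by
  rw [← FA.Ext.norm_intEmb, intEmb, mixedEmbedding.norm_apply,
    ← Finset.prod_fiberwise univ InfinitePlace.mk fun σ : K →+* ℂ => ‖σ (x : K)‖]
  refine Finset.prod_congr rfl fun w _ => ?_
  rw [mixedEmbedding.normAtPlace_apply, Finset.prod_congr rfl fun σ hσ => show ‖σ (x : K)‖ = w x by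
    rw [← (Finset.mem_filter.1 hσ).2, InfinitePlace.apply], Finset.prod_const, card_filter_mk_eq]

/-- **A pure type is a power of the norm times a unitary type.** -/
theorem typeVal_eq {n : (K →+* ℂ) → ℤ} {w : ℤ} (hw : IsPure n w) {x : 𝓞 K} (hx : x ≠ 0)
    (hpos : ∀ φ : K →+* ℝ, 0 < φ x) :
    typeVal n (x : K) = infChar 0 (kOf n) (intEmb K x) *
      ((Ideal.absNorm (Ideal.span {x}) : ℕ) : ℂ) ^ ((w : ℂ) / 2) := by
  have hx' : (x : K) ≠ 0 := RingOfIntegers.coe_ne_zero_iff.mpr hx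
  have hr : ∀ σ : K →+* ℂ, ‖σ (x : K)‖ ≠ 0 := fun σ => norm_ne_zero_iff.2 ((map_ne_zero σ).2 hx')
  have hsplit : typeVal n (x : K) =
      (∏ σ : K →+* ℂ, (σ (x : K) / (‖σ (x : K)‖ : ℂ)) ^ n σ) *
        ((∏ σ : K →+* ℂ, ‖σ (x : K)‖ ^ n σ : ℝ) : ℂ) := by
    rw [Complex.ofReal_prod, ← Finset.prod_mul_distrib, typeVal]
    refine Finset.prod_congr rfl fun σ _ => ?_
    rw [Complex.ofReal_zpow, ← mul_zpow, div_mul_cancel₀ _ (Complex.ofReal_ne_zero.2 (hr σ))]
  rw [hsplit]
  congr 1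
  · rw [infChar, FA.HeckeTorus.phase]
    simp only [Pi.zero_apply, mul_zero, zero_mul, Finset.sum_const_zero, Complex.ofReal_zero,
      Complex.exp_zero, one_mul]
    rw [← Finset.prod_fiberwise univ InfinitePlace.mk,
      ← Fintype.prod_subtype_mul_prod_subtype (fun v : InfinitePlace K => IsComplex v)]
    refine (congrArg₂ (· * ·) (Finset.prod_congr rfl fun v _ => ?_)
      (Finset.prod_eq_one fun v _ => ?_)).trans (mul_one _)
    · set z := v.1.embedding (x : K)
      have hz : z ≠ 0 := (map_ne_zero _).2 hx'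
      have hu : z / (‖z‖ : ℂ) ≠ 0 := div_ne_zero hz (Complex.ofReal_ne_zero.2 (norm_ne_zero_iff.2 hz))
      have hne : v.1.embedding ≠ ComplexEmbedding.conjugate v.1.embedding := fun e =>
        (isComplex_iff.1 v.2) (ComplexEmbedding.isReal_iff.2 e.symm)
      rw [filter_mk_eq, Finset.prod_pair hne, ComplexEmbedding.conjugate_coe_eq, Complex.norm_conj,
        show starRingEnd ℂ z / (‖z‖ : ℂ) = (z / (‖z‖ : ℂ))⁻¹ by
          rw [Complex.inv_eq_conj (by rw [norm_div, Complex.norm_real, norm_norm,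
            div_self (norm_ne_zero_iff.2 hz)]), map_div₀, Complex.conj_ofReal],
        inv_zpow', ← zpow_add₀ hu, ← sub_eq_add_neg]
      rfl
    · have hreal : IsReal v.1 := not_isComplex_iff_isReal.1 v.2
      have he : v.1.embedding (x : K) = ((embedding_of_isReal hreal (x : K) : ℝ) : ℂ) :=
        (embedding_of_isReal_apply hreal _).symm
      rw [filter_mk_eq, conjugate_embedding_eq_of_isReal hreal, Finset.pair_eq_singleton,
        Finset.prod_singleton, he, Complex.norm_real,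
        Real.norm_of_nonneg (hpos (embedding_of_isReal hreal)).le,
        div_self (Complex.ofReal_ne_zero.2 (hpos (embedding_of_isReal hreal)).ne'), one_zpow]
  · set N : ℝ := ((Ideal.absNorm (Ideal.span {x}) : ℕ) : ℝ) with hN
    have hN0 : 0 ≤ N := Nat.cast_nonneg _
    set P : ℝ := ∏ σ : K →+* ℂ, ‖σ (x : K)‖ ^ n σ with hP
    have hP0 : 0 ≤ P := Finset.prod_nonneg fun σ _ => zpow_nonneg (norm_nonneg _) _
    have hPP : P * P = N ^ w := by
      have h1 : P = ∏ σ : K →+* ℂ, ‖σ (x : K)‖ ^ n (ComplexEmbedding.conjugate σ) :=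
        (Fintype.prod_equiv
          (Function.Involutive.toPerm _ (ComplexEmbedding.involutive_conjugate K)) _ _ fun σ => by
            rw [Function.Involutive.coe_toPerm, ComplexEmbedding.conjugate_coe_eq,
              Complex.norm_conj]).symm
      nth_rw 2 [h1]
      rw [hP, ← Finset.prod_mul_distrib, hN, ← prod_norm_eq, ← Finset.prod_zpow]
      exact Finset.prod_congr rfl fun σ _ => by rw [← zpow_add₀ (hr σ), hw σ]
    have h2 : P = N ^ ((w : ℝ) / 2) := by
      rw [← Real.sqrt_mul_self hP0, hPP, Real.sqrt_eq_rpow, ← Real.rpow_intCast,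
        ← Real.rpow_mul hN0]
      congr 1
      ring
    rw [h2, Complex.ofReal_cpow hN0, hN]
    push_cast
    rfl

/-- **The unitary part of an algebraic character.** -/
theorem IsAlgChar.torus {𝔪 : Ideal (𝓞 K)} {n : (K →+* ℂ) → ℤ} {f : Ideal (𝓞 K) →* ℂ}
    (h : IsAlgChar 𝔪 n f) {w : ℤ} (hw : IsPure n w) :
    IsTorusChar 𝔪 0 (kOf n) (normTwist f (-((w : ℂ) / 2))) := by
  have hn : ∀ {I : Ideal (𝓞 K)}, I ≠ ⊥ →
      ((Ideal.absNorm I : ℕ) : ℂ) ^ (-((w : ℂ) / 2)) ≠ 0 := fun hI =>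
    Complex.cpow_ne_zero_iff.2 (Or.inl (Nat.cast_ne_zero.2 (absNorm_eq_zero_iff.not.2 hI)))
  refine ⟨h.ne_bot, fun I hI => ?_, balanced_zero, fun x hx => ?_⟩
  · rw [normTwist_apply, mul_ne_zero_iff, and_iff_left (hn hI)]
    exact h.ne_zero_iff I hI
  · rw [normTwist_apply, h.ray x hx, typeVal_eq hw hx.1 hx.2.2, mul_assoc,
      ← Complex.cpow_add _ _ (Nat.cast_ne_zero.2 (absNorm_eq_zero_iff.not.2
        fun e => hx.1 (Ideal.span_singleton_eq_bot.1 e))), add_neg_cancel, Complex.cpow_zero,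
      mul_one]

/-- **Existence from the units.** -/
theorem exists_isAlgChar {𝔪 : Ideal (𝓞 K)} {n : (K →+* ℂ) → ℤ} (h𝔪 : 𝔪 ≠ ⊥)
    (h : UnitTrivial 𝔪 n) : ∃ f, IsAlgChar 𝔪 n f := by
  obtain ⟨w, hw⟩ := exists_isPure h𝔪 h
  obtain ⟨g, hg⟩ := exists_isTorusChar (k := kOf n) h𝔪 balanced_zero fun u hu => by
    have h1 := h u hu
    rwa [typeVal_eq hw hu.1 hu.2.2, Ideal.span_singleton_eq_top.mpr u.isUnit, ← Ideal.one_eq_top,
      _root_.map_one Ideal.absNorm, Nat.cast_one, Complex.one_cpow, mul_one] at h1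
  refine ⟨normTwist g ((w : ℂ) / 2), h𝔪, fun I hI => ?_, fun x hx => ?_⟩
  · rw [normTwist_apply, mul_ne_zero_iff, and_iff_left (Complex.cpow_ne_zero_iff.2
      (Or.inl (Nat.cast_ne_zero.2 (absNorm_eq_zero_iff.not.2 hI))))]
    exact hg.ne_zero_iff I hI
  · rw [normTwist_apply, hg.ray x hx, typeVal_eq hw hx.1 hx.2.2]

end FA.AlgHecke

end
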