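import Fermat.Agent.AlgebraicHecke.Galois
import Mathlib.NumberTheory.NumberField.CMField

/-!
# Real places and subfields with complex multiplication

A type that is not constant needs a subfield with complex multiplication, so with a real place
there are only powers of the norm times characters of finite order.
-/

set_option autoImplicit false
set_option linter.unusedSectionVars false

noncomputable section

open NumberField NumberField.InfinitePlace IntermediateField Module
open FA.Hecke (IsRayChar)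
open FA.HeckeTorus (infChar_zero)
open FA.IdeleClass (normTwist)
open scoped Classical

namespace FA.AlgHecke

variable {K : Type*} [Field K] [NumberField K] {n : (K →+* ℂ) → ℤ} {w : ℤ}

/-- If the endomorphism of the descent can be taken trivial the type is constant. -/
theorem two_mul_eq_of_id (hw : IsPure n w) {K₀ : IntermediateField ℚ K}
    (hreal : ∀ (σ : K →+* ℂ) (x : K₀), starRingEnd ℂ (σ (x : K)) = σ (x : K))
    (hfac : ∀ σ σ' : K →+* ℂ, (∀ x ∈ K₀, σ x = σ' x) → n σ = n σ') (τ : K →+* ℂ) :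
    2 * n τ = w := by
  have h1 := hw τ
  have h2 : n τ = n (ComplexEmbedding.conjugate τ) := hfac _ _ fun x hx => by
    rw [ComplexEmbedding.conjugate_coe_eq]
    exact (hreal τ ⟨x, hx⟩).symm
  omega

/-- **With a real place the type is constant.** -/
theorem IsWeilType.two_mul_eq_of_isReal (h : IsWeilType n w) {σ : K →+* ℂ}
    (hσ : ComplexEmbedding.IsReal σ) (τ : K →+* ℂ) : 2 * n τ = w := by
  obtain ⟨hw, K₀, c₀, hc, hfac⟩ := h
  refine two_mul_eq_of_id hw (fun ρ x => ?_) hfac τ
  rw [hc ρ x, show c₀ x = x from Subtype.ext (σ.injective (by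
    rw [← hc σ x, ← ComplexEmbedding.conjugate_coe_eq, ComplexEmbedding.isReal_iff.1 hσ]))]

/-- A subfield with a complex conjugation other than the identity is a CM field. -/
theorem isCMField_of_conj {K₀ : IntermediateField ℚ K} {c₀ : K₀ →+* K₀}
    (hc : ∀ (σ : K →+* ℂ) (x : K₀), starRingEnd ℂ (σ (x : K)) = σ (c₀ x : K))
    (hne : ∃ x, c₀ x ≠ x) : IsCMField K₀ := by
  have hψ : ∀ (ψ : K₀ →+* ℂ) (x : K₀), starRingEnd ℂ (ψ x) = ψ (c₀ x) := fun ψ x => by
    rw [← ComplexEmbedding.lift_algebraMap_apply (K := K) ψ x,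
      ← ComplexEmbedding.lift_algebraMap_apply (K := K) ψ (c₀ x)]
    exact hc _ x
  obtain ⟨ψ₀⟩ : Nonempty (K₀ →+* ℂ) := inferInstance
  have hinv : ∀ x, c₀ (c₀ x) = x := fun x => ψ₀.injective (by
    rw [← hψ, ← hψ, Complex.conj_conj])
  obtain ⟨x₀, hx₀⟩ := hne
  haveI : IsTotallyComplex K₀ := ⟨fun v => not_isReal_iff_isComplex.1 fun hv => hx₀
    (v.embedding.injective (by
      rw [← hψ]
      exact RingHom.congr_fun (ComplexEmbedding.isReal_iff.1 (isReal_iff.1 hv)) x₀))⟩
  set F := maximalRealSubfield K₀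
  have hfix : ∀ x : K₀, x ∈ F ↔ c₀ x = x := fun x => by
    rw [mem_maximalRealSubfield_iff]
    refine ⟨fun h => ψ₀.injective ((hψ ψ₀ x).symm.trans (h ψ₀)), fun h ψ => ?_⟩
    exact (hψ ψ x).trans (by rw [h])
  let e : K₀ ≃ₐ[F] K₀ :=
    { toFun := c₀, invFun := c₀, left_inv := hinv, right_inv := hinv
      map_mul' := c₀.map_mul, map_add' := c₀.map_add
      commutes' := fun x => (hfix _).1 x.2 }
  have he : orderOf e = 2 := orderOf_eq_prime_iff.2
    ⟨AlgEquiv.ext fun x => by rw [sq]; exact hinv x, fun h => hx₀ (AlgEquiv.congr_fun h x₀)⟩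
  have hbot : IntermediateField.fixedField (Subgroup.zpowers e) = ⊥ := by
    refine le_antisymm (fun x hx => ?_) bot_le
    rw [IntermediateField.mem_bot]
    exact ⟨⟨x, (hfix x).2
      ((IntermediateField.mem_fixedField_iff _ x).1 hx e (Subgroup.mem_zpowers e))⟩, rfl⟩
  have hrank : finrank F K₀ = 2 := by
    have h := IntermediateField.finrank_fixedField_eq_card (Subgroup.zpowers e)
    rw [Nat.card_zpowers, he, hbot, IntermediateField.finrank_bot'] at h
    exact h
  exact @IsCMField.mk K₀ _ _ inferInstance ⟨hrank⟩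

/-- **Without a CM subfield the type is constant.** -/
theorem IsWeilType.two_mul_eq_of_no_cm (h : IsWeilType n w)
    (hK : ∀ E : IntermediateField ℚ K, ¬IsCMField E) (τ : K →+* ℂ) : 2 * n τ = w := by
  obtain ⟨hw, K₀, c₀, hc, hfac⟩ := h
  by_cases hid : ∃ x, c₀ x ≠ x
  · exact absurd (isCMField_of_conj hc hid) (hK K₀)
  · refine two_mul_eq_of_id hw (fun σ x => ?_) hfac τ
    rw [hc, not_not.1 (not_exists.1 hid x)]

/-- **On a CM field every pure type occurs.** -/
theorem isWeilType_of_isCMField [IsCMField K] (hw : IsPure n w) : IsWeilType n w :=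
  ⟨hw, ⊤, IntermediateField.topEquiv.symm.toRingEquiv.toRingHom.comp
    ((IsCMField.complexConj K).toRingEquiv.toRingHom.comp
      IntermediateField.topEquiv.toRingEquiv.toRingHom),
    fun σ x => (IsCMField.complexEmbedding_complexConj K σ (x : K)).symm,
    fun σ σ' h => by rw [RingHom.ext fun x => h x IntermediateField.mem_top]⟩

/-- **A constant type: a power of the norm times a character of finite order.** -/
theorem IsAlgChar.isRayChar_of_const {𝔪 : Ideal (𝓞 K)} {f : Ideal (𝓞 K) →* ℂ}
    (h : IsAlgChar 𝔪 n f) {a : ℤ} (ha : ∀ σ, n σ = a) :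
    IsRayChar 𝔪 (normTwist f (-(a : ℂ))) := by
  have h1 := h.torus (w := 2 * a) fun σ => by rw [ha, ha, two_mul]
  rw [show kOf n = 0 from funext fun v => by simp [kOf, ha],
    show -(((2 * a : ℤ) : ℂ) / 2) = -(a : ℂ) by push_cast; ring] at h1
  exact ⟨h1.ne_bot, h1.ne_zero_iff, fun x hx hx1 hx2 =>
    (h1.ray x ⟨hx, hx1, hx2⟩).trans infChar_zero⟩

end FA.AlgHecke

end
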