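import Fermat.Agent.AlgebraicHecke.Basic
import Mathlib.FieldTheory.Normal.Closure
import Mathlib.FieldTheory.Galois.Basic
import Mathlib.Analysis.Complex.Polynomial.Basic

/-!
# Weil's descent for algebraic types

The Galois group of the normal closure moves a type that is trivial on a congruence subgroup of
units to another one, so all of them are pure.  Hence the type is invariant under the products of
two conjugations and is inherited from a subfield with a single complex conjugation.  Conversely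
such a type is trivial on the units congruent to `1` modulo `3`.
-/

set_option autoImplicit false
set_option linter.unusedSectionVars false

noncomputable section

open NumberField NumberField.InfinitePlace IntermediateField Module Finset
open FA.Hecke (IsRayElt)
open scoped Classical commutatorElement

namespace FA.AlgHecke

variable (K : Type*) [Field K] [NumberField K]

/-- The normal closure inside `ℂ`. -/
abbrev galClosure : IntermediateField ℚ ℂ := IntermediateField.normalClosure ℚ K ℂ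

instance isGalois_galClosure : IsGalois ℚ (galClosure K) where
  to_normal := (Algebra.IsAlgebraic.isNormalClosure_normalClosure (F := ℚ) (K := K) (L := ℂ)
    fun _ => IsAlgClosed.splits _).normal

instance numberField_galClosure : NumberField (galClosure K) where

/-- The embeddings into the normal closure. -/
def embEquiv : (K →+* ℂ) ≃ (K →ₐ[ℚ] galClosure K) :=
  (RingHom.equivRatAlgHom K ℂ).trans (normalClosure.algHomEquiv ℚ K ℂ).symm

/-- Complex conjugation of the normal closure. -/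
def cGal : galClosure K ≃ₐ[ℚ] galClosure K :=
  (Complex.conjAe.restrictScalars ℚ).restrictNormal (galClosure K)

variable {K}

theorem coe_embEquiv (σ : K →+* ℂ) (x : K) : ((embEquiv K σ x : galClosure K) : ℂ) = σ x := rfl

theorem coe_cGal (y : galClosure K) : ((cGal K y : galClosure K) : ℂ) = starRingEnd ℂ (y : ℂ) :=
  AlgEquiv.restrictNormal_commutes (Complex.conjAe.restrictScalars ℚ) (galClosure K) y

theorem cGal_mul_self : cGal K * cGal K = 1 :=
  AlgEquiv.ext fun y => Subtype.ext (by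
    rw [AlgEquiv.mul_apply, coe_cGal, coe_cGal, Complex.conj_conj, AlgEquiv.one_apply])

theorem cGal_inv : (cGal K)⁻¹ = cGal K := inv_eq_of_mul_eq_one_right cGal_mul_self

/-- The action on the embeddings. -/
def act (g : galClosure K ≃ₐ[ℚ] galClosure K) (σ : K →+* ℂ) : K →+* ℂ :=
  (embEquiv K).symm (g.toAlgHom.comp (embEquiv K σ))

theorem act_apply (g : galClosure K ≃ₐ[ℚ] galClosure K) (σ : K →+* ℂ) (x : K) :
    act g σ x = ((g (embEquiv K σ x) : galClosure K) : ℂ) := rfl

theorem embEquiv_act (g : galClosure K ≃ₐ[ℚ] galClosure K) (σ : K →+* ℂ) :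
    embEquiv K (act g σ) = g.toAlgHom.comp (embEquiv K σ) :=
  (embEquiv K).apply_symm_apply _

theorem act_mul (g h : galClosure K ≃ₐ[ℚ] galClosure K) (σ : K →+* ℂ) :
    act (g * h) σ = act g (act h σ) :=
  RingHom.ext fun x => by rw [act_apply, act_apply, embEquiv_act]; rfl

theorem act_one (σ : K →+* ℂ) : act 1 σ = σ :=
  RingHom.ext fun _ => rfl

/-- The action as a permutation. -/
def actPerm (g : galClosure K ≃ₐ[ℚ] galClosure K) : (K →+* ℂ) ≃ (K →+* ℂ) where
  toFun := act g
  invFun := act g⁻¹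
  left_inv σ := by rw [← act_mul, inv_mul_cancel, act_one]
  right_inv σ := by rw [← act_mul, mul_inv_cancel, act_one]

theorem act_cGal (σ : K →+* ℂ) : act (cGal K) σ = ComplexEmbedding.conjugate σ :=
  RingHom.ext fun x => by
    rw [act_apply, coe_cGal, coe_embEquiv, ComplexEmbedding.conjugate_coe_eq]

theorem exists_act_eq (σ τ : K →+* ℂ) : ∃ g, act g σ = τ := by
  set j := embEquiv K σ
  set j' := embEquiv K τ
  set f : j.fieldRange →ₐ[ℚ] galClosure K :=
    j'.comp (AlgEquiv.ofInjectiveField j).symm.toAlgHom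
  refine ⟨AlgEquiv.ofBijective (f.liftNormal (galClosure K))
    (Algebra.IsAlgebraic.algHom_bijective _), RingHom.ext fun x => ?_⟩
  rw [act_apply, ← coe_embEquiv τ x]
  refine congrArg Subtype.val ?_
  have h := f.liftNormal_commutes (galClosure K) (AlgEquiv.ofInjectiveField j x)
  exact h.trans (congrArg j' ((AlgEquiv.ofInjectiveField j).symm_apply_apply x))

/-- Every embedding of the normal closure comes from the group. -/
theorem exists_gal_eq (φ : galClosure K →+* ℂ) :
    ∃ g : galClosure K ≃ₐ[ℚ] galClosure K, ∀ y, φ y = ((g y : galClosure K) : ℂ) := by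
  refine ⟨AlgEquiv.ofBijective (φ.toRatAlgHom.restrictNormal (galClosure K))
    (Algebra.IsAlgebraic.algHom_bijective _), fun y => ?_⟩
  exact (AlgHom.restrictNormal_commutes φ.toRatAlgHom (galClosure K) y).symm

/-- Pure, and so are all Galois conjugates, of the same weight. -/
def IsStrongPure (n : (K →+* ℂ) → ℤ) (w : ℤ) : Prop :=
  ∀ g : galClosure K ≃ₐ[ℚ] galClosure K, IsPure (n ∘ act g) w

/-- **The descent datum**: a pure type inherited from a subfield on which one endomorphism
induces complex conjugation in every embedding. -/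
def IsWeilType (n : (K →+* ℂ) → ℤ) (w : ℤ) : Prop :=
  IsPure n w ∧ ∃ (K₀ : IntermediateField ℚ K) (c₀ : K₀ →+* K₀),
    (∀ (σ : K →+* ℂ) (x : K₀), starRingEnd ℂ (σ (x : K)) = σ (c₀ x : K)) ∧
    ∀ σ σ' : K →+* ℂ, (∀ x ∈ K₀, σ x = σ' x) → n σ = n σ'

/-! ### Galois conjugates of types -/

theorem typeVal_comp_act (n : (K →+* ℂ) → ℤ) (g : galClosure K ≃ₐ[ℚ] galClosure K) {x : K}
    (h : typeVal n x = 1) : typeVal (n ∘ act g) x = 1 := by
  set P : galClosure K := ∏ σ : K →+* ℂ, embEquiv K σ x ^ n σ with hP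
  have hval : (galClosure K).val P = typeVal n x := by
    rw [hP, map_prod, typeVal]
    exact Finset.prod_congr rfl fun σ _ => by rw [map_zpow₀]; rfl
  have hP1 : P = 1 := Subtype.ext (hval.trans h)
  have h2 : (galClosure K).val (g⁻¹ P) = typeVal (n ∘ act g) x := by
    rw [hP, map_prod, map_prod, typeVal]
    refine (Fintype.prod_equiv (actPerm g) _ _ fun σ => ?_).symm
    rw [map_zpow₀, map_zpow₀]
    show σ x ^ n (act g σ) = ((g⁻¹ (embEquiv K (act g σ) x) : galClosure K) : ℂ) ^ n (act g σ)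
    rw [← act_apply, ← act_mul, inv_mul_cancel, act_one]
  rw [← h2, hP1, map_one, map_one]

theorem UnitTrivial.isStrongPure {𝔪 : Ideal (𝓞 K)} {n : (K →+* ℂ) → ℤ} (h𝔪 : 𝔪 ≠ ⊥)
    (h : UnitTrivial 𝔪 n) : ∃ w : ℤ, IsStrongPure n w := by
  obtain ⟨w, hw⟩ := exists_isPure h𝔪 h
  refine ⟨w, fun g => ?_⟩
  obtain ⟨v, hv⟩ := exists_isPure h𝔪 (n := n ∘ act g) fun u hu => typeVal_comp_act n g (h u hu)
  have hsum : ∀ (m : (K →+* ℂ) → ℤ) (a : ℤ), IsPure m a →
      2 * ∑ σ, m σ = (Fintype.card (K →+* ℂ) : ℤ) * a := fun m a hm => by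
    have h1 : ∑ σ, m (ComplexEmbedding.conjugate σ) = ∑ σ, m σ :=
      Equiv.sum_comp (Function.Involutive.toPerm _ (ComplexEmbedding.involutive_conjugate K)) m
    rw [two_mul]
    nth_rw 2 [← h1]
    rw [← Finset.sum_add_distrib, Finset.sum_congr rfl fun σ _ => hm σ, Finset.sum_const,
      Finset.card_univ, nsmul_eq_mul]
  have h2 : (Fintype.card (K →+* ℂ) : ℤ) * v = (Fintype.card (K →+* ℂ) : ℤ) * w := by
    rw [← hsum _ v hv, ← hsum _ w hw]
    exact congrArg (2 * ·) (Equiv.sum_comp (actPerm g) n)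
  rwa [mul_left_cancel₀ (Nat.cast_ne_zero.2 Fintype.card_ne_zero) h2] at hv

/-- **A Weil type has all conjugates pure.** -/
theorem IsWeilType.isStrongPure {n : (K →+* ℂ) → ℤ} {w : ℤ} (h : IsWeilType n w) :
    IsStrongPure n w := fun g σ => by
  obtain ⟨hw, K₀, c₀, hc, hfac⟩ := h
  show n (act g σ) + n (act g (ComplexEmbedding.conjugate σ)) = w
  have e : n (act g (ComplexEmbedding.conjugate σ)) =
      n (ComplexEmbedding.conjugate (act g σ)) := by
    refine hfac _ _ fun x hx => ?_
    rw [ComplexEmbedding.conjugate_coe_eq, hc (act g σ) ⟨x, hx⟩, act_apply, act_apply]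
    refine congrArg (fun y => ((g y : galClosure K) : ℂ)) (Subtype.ext ?_)
    rw [coe_embEquiv, coe_embEquiv, ComplexEmbedding.conjugate_coe_eq]
    exact hc σ ⟨x, hx⟩
  rw [e]
  exact hw _

/-- **The descent.** -/
theorem IsStrongPure.isWeilType {n : (K →+* ℂ) → ℤ} {w : ℤ} (h : IsStrongPure n w) :
    IsWeilType n w := by
  set c := cGal K
  have hp : ∀ σ, n σ + n (act c σ) = w := fun σ => by
    have h1 := h 1 σ
    simp only [Function.comp_apply, act_one] at h1
    rw [act_cGal]
    exact h1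
  have hc : ∀ (x : galClosure K ≃ₐ[ℚ] galClosure K) (σ : K →+* ℂ),
      n (act (x * c * x⁻¹) σ) = w - n σ := fun x σ => by
    have h1 := h x (act x⁻¹ σ)
    simp only [Function.comp_apply, ← act_cGal, ← act_mul, mul_inv_cancel, act_one,
      ← mul_assoc] at h1
    linarith
  let P : Subgroup (galClosure K ≃ₐ[ℚ] galClosure K) :=
    { carrier := {x | ∀ σ, n (act x σ) = n σ}
      one_mem' := fun σ => by rw [act_one]
      mul_mem' := fun {x y} hx hy σ => by rw [act_mul, hx, hy]
      inv_mem' := fun {x} hx σ => by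
        have h1 := hx (act x⁻¹ σ)
        rw [← act_mul, mul_inv_cancel, act_one] at h1
        exact h1.symm }
  set N : Subgroup (galClosure K ≃ₐ[ℚ] galClosure K) :=
    Subgroup.normalClosure (Set.range fun g => ⁅c, g⁆) with hN
  have hNP : N ≤ P := by
    refine (Subgroup.closure_le P).2 fun y hy => ?_
    obtain ⟨_, ⟨g, rfl⟩, hconj⟩ := Group.mem_conjugatesOfSet_iff.1 hy
    obtain ⟨x, rfl⟩ := isConj_iff.1 hconj
    intro σ
    rw [show x * ⁅c, g⁆ * x⁻¹ = (x * c * x⁻¹) * ((x * g) * c * (x * g)⁻¹) by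
      rw [commutatorElement_def, show c⁻¹ = c from cGal_inv]; group, act_mul, hc, hc]
    ring
  -- `c` commutes with the group on the fixed field of `N`
  have hcomm : ∀ (x : galClosure K ≃ₐ[ℚ] galClosure K) (z : galClosure K),
      z ∈ fixedField N → x (c z) = c (x z) := fun x z hz => by
    have h1 : (⁅c, x⁻¹⁆)⁻¹ ∈ N := inv_mem (Subgroup.subset_normalClosure ⟨x⁻¹, rfl⟩)
    have h2 : x * c = c * (x * (⁅c, x⁻¹⁆)⁻¹) := by
      rw [commutatorElement_inv, commutatorElement_def, show c⁻¹ = c from cGal_inv]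
      calc x * c = 1 * x * c := by rw [one_mul]
        _ = c * c * x * c := by rw [cGal_mul_self]
        _ = c * (x * (x⁻¹ * c * x⁻¹⁻¹ * c)) := by group
    calc x (c z) = (x * c) z := rfl
      _ = c (x ((⁅c, x⁻¹⁆)⁻¹ z)) := by rw [h2]; rfl
      _ = c (x z) := by rw [(IntermediateField.mem_fixedField_iff N z).1 hz _ h1]
  obtain ⟨σ₀⟩ : Nonempty (K →+* ℂ) := inferInstance
  set j := embEquiv K σ₀
  set H := j.fieldRange.fixingSubgroup
  let K₀ : IntermediateField ℚ K := (fixedField N).comap j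
  have hH : ∀ {x : galClosure K ≃ₐ[ℚ] galClosure K}, x ∈ H → ∀ a, x (j a) = j a :=
    fun hx a => (IntermediateField.mem_fixingSubgroup_iff _ _).1 hx _ ⟨a, rfl⟩
  have hdown : ∀ y ∈ fixedField (N ⊔ H), ∃ a ∈ K₀, j a = y := fun y hy => by
    have h1 : y ∈ fixedField H := (IntermediateField.mem_fixedField_iff H y).2 fun x hx =>
      (IntermediateField.mem_fixedField_iff (N ⊔ H) y).1 hy x (Subgroup.mem_sup_right hx)
    rw [IsGalois.fixedField_fixingSubgroup] at h1
    obtain ⟨a, rfl⟩ := h1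
    exact ⟨a, (IntermediateField.mem_fixedField_iff N _).2 fun x hx =>
      (IntermediateField.mem_fixedField_iff (N ⊔ H) _).1 hy x (Subgroup.mem_sup_left hx), rfl⟩
  have hex : ∀ a : K₀, ∃ b : K₀, ∀ σ : K →+* ℂ,
      starRingEnd ℂ (σ (a : K)) = σ (b : K) := fun a => by
    have ha : j a ∈ fixedField N := a.2
    have hle : N ⊔ H ≤ MulAction.stabilizer _ (c (j a)) := by
      refine sup_le (fun x hx => ?_) fun x hx => ?_ <;> rw [MulAction.mem_stabilizer_iff]
      · show x (c (j a)) = c (j a)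
        rw [hcomm x _ ha, (IntermediateField.mem_fixedField_iff N _).1 ha x hx]
      · show x (c (j a)) = c (j a)
        rw [hcomm x _ ha, hH hx]
    obtain ⟨b, hb, hbe⟩ := hdown (c (j a))
      ((IntermediateField.mem_fixedField_iff _ _).2 fun x hx => hle hx)
    refine ⟨⟨b, hb⟩, fun σ => ?_⟩
    obtain ⟨g, rfl⟩ := exists_act_eq σ₀ σ
    rw [act_apply, act_apply, ← coe_cGal, ← hcomm g _ ha, ← hbe]
  choose c₀ hc₀ using hex
  have hc₀i : ∀ {a b : K₀}, (∀ σ : K →+* ℂ, σ (a : K) = σ (b : K)) → a = b := fun h1 =>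
    Subtype.ext (σ₀.injective (h1 σ₀))
  refine ⟨fun σ => by rw [← act_cGal]; exact hp σ, K₀,
    { toFun := c₀
      map_one' := hc₀i fun σ => by rw [← hc₀]; simp
      map_mul' := fun a b => hc₀i fun σ => by
        rw [← hc₀, IntermediateField.coe_mul, IntermediateField.coe_mul, map_mul, map_mul,
          map_mul, hc₀, hc₀]
      map_zero' := hc₀i fun σ => by rw [← hc₀]; simp
      map_add' := fun a b => hc₀i fun σ => by
        rw [← hc₀, IntermediateField.coe_add, IntermediateField.coe_add, map_add, map_add,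
          map_add, hc₀, hc₀] }, fun σ a => hc₀ a σ, fun σ σ' hσ => ?_⟩
  obtain ⟨g, rfl⟩ := exists_act_eq σ₀ σ
  obtain ⟨g', rfl⟩ := exists_act_eq σ₀ σ'
  have hm : g⁻¹ * g' ∈ N ⊔ H := by
    rw [← IntermediateField.fixingSubgroup_fixedField (N ⊔ H),
      IntermediateField.mem_fixingSubgroup_iff]
    intro y hy
    obtain ⟨a, ha, rfl⟩ := hdown y hy
    have h1 : g (j a) = g' (j a) := Subtype.ext (hσ a ha)
    show g⁻¹ (g' (j a)) = j a
    rw [← h1, ← AlgEquiv.mul_apply, inv_mul_cancel, AlgEquiv.one_apply]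
  haveI : N.Normal := Subgroup.normalClosure_normal
  obtain ⟨ν, hν, x, hx, he⟩ := Subgroup.mem_sup_of_normal_left.1 hm
  have hxσ : act x σ₀ = σ₀ := RingHom.ext fun a => by
    rw [act_apply, hH hx, coe_embEquiv]
  have hg : g' = (g * ν * g⁻¹) * g * x := by
    rw [inv_mul_cancel_right, mul_assoc, he, mul_inv_cancel_left]
  rw [hg, act_mul, hxσ, act_mul,
    hNP (Subgroup.normalClosure_normal.conj_mem ν hν g) (act g σ₀)]

/-! ### The congruence modulo `3` -/

theorem norm_typeVal_sq {n : (K →+* ℂ) → ℤ} {w : ℤ} (hw : IsPure n w) (x : 𝓞 K) (hx : x ≠ 0) :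
    ‖typeVal n (x : K)‖ ^ 2 = ((Ideal.absNorm (Ideal.span {x}) : ℕ) : ℝ) ^ w := by
  have hr : ∀ σ : K →+* ℂ, ‖σ (x : K)‖ ≠ 0 := fun σ =>
    norm_ne_zero_iff.2 ((map_ne_zero σ).2 (RingOfIntegers.coe_ne_zero_iff.mpr hx))
  have h1 : ‖typeVal n (x : K)‖ =
      ∏ σ : K →+* ℂ, ‖σ (x : K)‖ ^ n (ComplexEmbedding.conjugate σ) := by
    rw [typeVal, norm_prod]
    refine (Fintype.prod_equiv
      (Function.Involutive.toPerm _ (ComplexEmbedding.involutive_conjugate K)) _ _ fun σ => ?_).symm
    rw [Function.Involutive.coe_toPerm, norm_zpow, ComplexEmbedding.conjugate_coe_eq,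
      Complex.norm_conj]
  rw [sq]
  nth_rw 2 [h1]
  rw [typeVal, norm_prod, ← Finset.prod_mul_distrib, ← prod_norm_eq, ← Finset.prod_zpow]
  exact Finset.prod_congr rfl fun σ _ => by rw [norm_zpow, ← zpow_add₀ (hr σ), hw σ]

/-- **A strongly pure type is trivial on the units congruent to `1` modulo `3`.** -/
theorem IsStrongPure.unitTrivial {n : (K →+* ℂ) → ℤ} {w : ℤ} (h : IsStrongPure n w)
    {𝔪 : Ideal (𝓞 K)} (h3 : 𝔪 ≤ Ideal.span {(3 : 𝓞 K)}) : UnitTrivial 𝔪 n := by
  intro u hu
  let f : (K →+* ℂ) → ((𝓞 K)ˣ →* (𝓞 (galClosure K))ˣ) := fun σ =>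
    Units.map (RingOfIntegers.mapRingHom (embEquiv K σ).toRingHom).toMonoidHom
  set U : (𝓞 (galClosure K))ˣ := ∏ σ : K →+* ℂ, f σ u ^ n σ with hU
  set Q := Ideal.span {(3 : 𝓞 (galClosure K))}
  have hUq : Units.map (Ideal.Quotient.mk Q).toMonoidHom U = 1 := by
    rw [hU, map_prod]
    refine Finset.prod_eq_one fun σ _ => ?_
    rw [map_zpow, show Units.map (Ideal.Quotient.mk Q).toMonoidHom (f σ u) = 1 from Units.ext ?_,
      one_zpow]
    obtain ⟨b, hb⟩ := Ideal.mem_span_singleton.1 (h3 hu.2.1)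
    refine (Ideal.Quotient.mk_eq_mk_iff_sub_mem _ _).2 (Ideal.mem_span_singleton.2
      ⟨RingOfIntegers.mapRingHom (embEquiv K σ).toRingHom b, ?_⟩)
    show RingOfIntegers.mapRingHom _ (u : 𝓞 K) - 1 = _
    rw [show (u : 𝓞 K) = 1 + 3 * b by rw [← hb]; ring, map_add, map_one, map_mul, map_ofNat]
    ring
  obtain ⟨β, hβ⟩ := Ideal.mem_span_singleton.1
    ((Ideal.Quotient.mk_eq_mk_iff_sub_mem ((U : (𝓞 (galClosure K))ˣ) : 𝓞 (galClosure K)) 1).1
      (congrArg Units.val hUq))
  have hcoe : (((U : 𝓞 (galClosure K)) : galClosure K)) =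
      ∏ σ : K →+* ℂ, embEquiv K σ ((u : 𝓞 K) : K) ^ n σ := by
    rw [show ((U : 𝓞 (galClosure K)) : galClosure K) = ((Units.map
      (algebraMap (𝓞 (galClosure K)) (galClosure K)).toMonoidHom U : (galClosure K)ˣ) :
        galClosure K) from rfl, hU, map_prod, Units.coe_prod]
    exact Finset.prod_congr rfl fun σ _ => by rw [map_zpow, Units.val_zpow_eq_zpow_val]; rfl
  have hnorm : ∀ φ : galClosure K →+* ℂ, ‖φ ((U : 𝓞 (galClosure K)) : galClosure K)‖ = 1 := by
    intro φ
    obtain ⟨g, hg⟩ := exists_gal_eq φ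
    have h1 : φ ((U : 𝓞 (galClosure K)) : galClosure K) =
        typeVal (n ∘ act g⁻¹) ((u : 𝓞 K) : K) := by
      rw [hcoe, map_prod, typeVal]
      refine Fintype.prod_equiv (actPerm g) _ _ fun σ => ?_
      rw [map_zpow₀, hg]
      show act g σ ((u : 𝓞 K) : K) ^ n σ = act g σ ((u : 𝓞 K) : K) ^ n (act g⁻¹ (act g σ))
      rw [← act_mul, inv_mul_cancel, act_one]
    have h2 := norm_typeVal_sq (h g⁻¹) (u : 𝓞 K) hu.1
    rw [Ideal.span_singleton_eq_top.mpr u.isUnit, ← Ideal.one_eq_top,
      map_one Ideal.absNorm, Nat.cast_one, one_zpow, sq_eq_one_iff] at h2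
    rw [h1]
    exact h2.resolve_right fun h3 => by
      have h4 := norm_nonneg (typeVal (n ∘ act g⁻¹) ((u : 𝓞 K) : K))
      rw [h3] at h4
      norm_num at h4
  have hβ0 : β = 0 := by
    by_contra hne
    have hlt : ∀ v : InfinitePlace (galClosure K), v (β : galClosure K) < 1 := fun v => by
      rw [← norm_embedding_eq]
      have h1 : (3 : ℂ) * v.embedding (β : galClosure K) =
          v.embedding ((U : 𝓞 (galClosure K)) : galClosure K) - 1 := by
        have e := congrArg (fun z : 𝓞 (galClosure K) => v.embedding (z : galClosure K)) hβ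
        simp only [map_sub, map_one, map_mul, map_ofNat] at e
        exact e.symm
      have h2 : ‖(3 : ℂ) * v.embedding (β : galClosure K)‖ ≤ 2 := by
        rw [h1]
        exact (norm_sub_le _ _).trans (by rw [hnorm, norm_one]; norm_num)
      rw [norm_mul, Complex.norm_ofNat] at h2
      linarith
    obtain ⟨v⟩ : Nonempty (InfinitePlace (galClosure K)) := inferInstance
    exact absurd (one_le_of_lt_one (w := v) hne fun z _ => hlt z) (not_le.2 (hlt v))
  rw [hβ0, mul_zero, sub_eq_zero] at hβ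
  have h5 := congrArg (fun z : 𝓞 (galClosure K) => (galClosure K).val (z : galClosure K)) hβ
  simp only [hcoe, map_prod, map_zpow₀, map_one] at h5
  exact h5

/-- **The types that occur.** -/
theorem exists_isAlgChar_iff (n : (K →+* ℂ) → ℤ) :
    (∃ 𝔪 f, IsAlgChar 𝔪 n f) ↔ ∃ w : ℤ, IsWeilType n w := by
  refine ⟨fun ⟨𝔪, f, hf⟩ => ?_, fun ⟨w, hw⟩ => ?_⟩
  · obtain ⟨w, hw⟩ := hf.unitTrivial.isStrongPure hf.ne_bot
    exact ⟨w, hw.isWeilType⟩
  · exact ⟨Ideal.span {3}, exists_isAlgChar
      (by rw [Ne, Ideal.span_singleton_eq_bot]; norm_num)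
      (hw.isStrongPure.unitTrivial le_rfl)⟩

end FA.AlgHecke

end
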