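import Fermat.Agent.AlgebraicHecke.Basic
import Fermat.Agent.IdeleClass.GroessenExists

/-!
# Algebraic characters and idele class characters

An algebraic character of type `n` comes from exactly one continuous character of the idele classes
which is `∏ σ (y) ^ (-n σ)` on the positive infinite ideles.
-/

set_option autoImplicit false
set_option linter.unusedSectionVars false

noncomputable section

open NumberField NumberField.InfinitePlace NumberField.InfinitePlace.Completion IsDedekindDomain
open Module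
open FA.Ideles FA.IdeleClass
open FA.ArtinRec (unif)
open FA.HeckeTorus (infChar)
open scoped Classical

namespace FA.AlgHecke

universe u

variable {K : Type u} [Field K] [NumberField K]

/-- `∏ σ (y) ^ n σ` on the infinite components. -/
def infType (n : (K →+* ℂ) → ℤ) (y : Idele K) : ℂ :=
  ∏ w : InfinitePlace K, extensionEmbedding w (infComp w y).val ^ n w.embedding *
    if IsComplex w then
      starRingEnd ℂ (extensionEmbedding w (infComp w y).val) ^
        n (ComplexEmbedding.conjugate w.embedding)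
    else 1

variable (K) in
/-- A real power of the absolute value. -/
def absPow (r : ℝ) : Idele K →* ℂˣ where
  toFun x := Units.mk0 (((ideleAbs K x ^ r : ℝ)) : ℂ)
    (Complex.ofReal_ne_zero.2 (Real.rpow_pos_of_pos (ideleAbs_pos x) r).ne')
  map_one' := Units.ext (by simp)
  map_mul' x y := Units.ext (by
    simp [Real.mul_rpow (ideleAbs_pos x).le (ideleAbs_pos y).le])

theorem absPow_val (r : ℝ) (x : Idele K) :
    ((absPow K r x : ℂˣ) : ℂ) = ((ideleAbs K x ^ r : ℝ) : ℂ) := rfl

theorem continuous_absPow (r : ℝ) : Continuous (absPow K r) :=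
  continuous_units_of_val (by
    simp only [absPow_val]
    exact Complex.continuous_ofReal.comp
      (continuous_ideleAbs.rpow_const fun x => Or.inl (ideleAbs_pos x).ne'))

/-- **A pure type on the positive infinite ideles.** -/
theorem infType_eq {n : (K →+* ℂ) → ℤ} {w : ℤ} (hw : IsPure n w) {y : Idele K}
    (hy : y ∈ posInf K) :
    infType n y =
      infChar 0 (kOf n) (infVec y) * ((ideleAbs K y ^ ((w : ℝ) / 2) : ℝ) : ℂ) := by
  have hz : ∀ v : InfinitePlace K,
      ‖extensionEmbedding v (infComp v y).val‖ = ‖(infComp v y).val‖ := fun v =>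
    (isometry_extensionEmbedding v).norm_map_of_map_zero (map_zero _) _
  rw [infChar, FA.HeckeTorus.phase,
    ideleAbs_of_units fun v => by rw [hy.1 v, Units.val_one, map_one],
    ← Real.finsetProd_rpow _ _ fun v _ => by positivity, Complex.ofReal_prod]
  simp only [Pi.zero_apply, mul_zero, zero_mul, Finset.sum_const_zero, Complex.ofReal_zero,
    Complex.exp_zero, one_mul, infType]
  rw [← Fintype.prod_subtype_mul_prod_subtype (fun v : InfinitePlace K => IsComplex v)
      fun v => (((‖(infComp v y).val‖ ^ v.mult) ^ ((w : ℝ) / 2) : ℝ) : ℂ),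
    ← Fintype.prod_subtype_mul_prod_subtype (fun v : InfinitePlace K => IsComplex v),
    ← mul_assoc, ← Finset.prod_mul_distrib]
  refine congrArg₂ (· * ·) (Finset.prod_congr rfl fun v _ => ?_) (Finset.prod_congr rfl fun v _ => ?_)
  · set z := extensionEmbedding v.1 (infComp v.1 y).val with hzdef
    have hz0 : z ≠ 0 := (map_ne_zero _).2 (Units.ne_zero _)
    have hr : (‖z‖ : ℂ) ≠ 0 := Complex.ofReal_ne_zero.2 (norm_ne_zero_iff.2 hz0)
    rw [if_pos v.2, ← hz, ← hzdef, IsComplex.mult_eq_two v.2,
      show (infVec y).2 v = z from rfl,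
      show ((‖z‖ ^ 2) ^ ((w : ℝ) / 2) : ℝ) = ‖z‖ ^ w by
        rw [← Real.rpow_natCast, ← Real.rpow_mul (norm_nonneg z), ← Real.rpow_intCast]
        congr 1
        push_cast
        ring,
      Complex.ofReal_zpow, ← hw v.1.embedding, zpow_add₀ hr, kOf, div_zpow,
      zpow_sub₀ hz0, zpow_sub₀ hr]
    have hc : starRingEnd ℂ z = (‖z‖ : ℂ) * (‖z‖ : ℂ) / z := by
      rw [eq_div_iff hz0, Complex.conj_mul', sq]
    rw [hc, div_zpow, mul_zpow]
    field_simp
  · have hreal : IsReal v.1 := not_isComplex_iff_isReal.1 v.2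
    have h2 : 2 * n v.1.embedding = w := by
      have := hw v.1.embedding
      rw [conjugate_embedding_eq_of_isReal hreal] at this
      omega
    set r := extensionEmbeddingOfIsReal hreal (infComp v.1 y).val
    have hr0 : 0 < r := hy.2 v.1 hreal
    have hzr : extensionEmbedding v.1 (infComp v.1 y).val = (r : ℂ) :=
      (extensionEmbeddingOfIsReal_apply hreal _).symm
    rw [if_neg v.2, mul_one, ← hz, hzr, Complex.norm_real, Real.norm_of_nonneg hr0.le,
      IsReal.mult_eq_one hreal, pow_one, ← h2,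
      show ((2 * n v.1.embedding : ℤ) : ℝ) / 2 = (n v.1.embedding : ℝ) by push_cast; ring,
      Real.rpow_intCast, Complex.ofReal_zpow]

/-- **Exactly one idele class character for an algebraic character.** -/
theorem IsAlgChar.existsUnique_ideleChar {𝔪 : Ideal (𝓞 K)} {n : (K →+* ℂ) → ℤ}
    {f : Ideal (𝓞 K) →* ℂ} (h : IsAlgChar 𝔪 n f) :
    ∃! χ : Idele K →* ℂˣ, Continuous χ ∧ (∀ a : Kˣ, χ (principal a) = 1) ∧
      (∀ y ∈ posInf K, ((χ y : ℂˣ) : ℂ) * infType n y = 1) ∧
      ∀ v : HeightOneSpectrum (𝓞 K), ¬v.asIdeal ∣ 𝔪 →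
        (∀ z : (v.adicCompletion K)ˣ, Valued.v (z : v.adicCompletion K) = 1 →
          χ (single v z) = 1) ∧
        ((χ (single v (localEmb v (unif v))) : ℂˣ) : ℂ) = f v.asIdeal := by
  obtain ⟨w, hw⟩ := exists_isPure h.ne_bot h.unitTrivial
  obtain ⟨χ₀, hχ₀, htype, hval⟩ := exists_ideleChar_of_isTorusChar (h.torus hw)
  refine ⟨χ₀ * absPow K (-((w : ℝ) / 2)),
    ⟨hχ₀.cont.mul (continuous_absPow _), fun a => ?_, fun y hy => ?_, fun v hv => ⟨fun z hz => ?_, ?_⟩⟩,
    ?_⟩
  · rw [MonoidHom.mul_apply, hχ₀.principal_eq, one_mul]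
    refine Units.ext ?_
    rw [absPow_val, ideleAbs_principal, Real.one_rpow, Complex.ofReal_one, Units.val_one]
  · have h1 := congrArg Units.val (htype y hy)
    rw [Units.val_mul, typeChar_val, Units.val_one] at h1
    rw [MonoidHom.mul_apply, Units.val_mul, absPow_val, infType_eq hw hy,
      mul_mul_mul_comm, h1, ← Complex.ofReal_mul, ← Real.rpow_add (ideleAbs_pos y), neg_add_cancel,
      Real.rpow_zero, Complex.ofReal_one, one_mul]
  · have h2 : χ₀ (single v z) = 1 := by_contra fun hne => (hval v hv).1 ⟨z, hz, hne⟩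
    have h3 := single_mem_levelSub (T := (∅ : Set (HeightOneSpectrum (𝓞 K)))) (k := 0)
      (Set.notMem_empty v) hz
    rw [MonoidHom.mul_apply, h2, one_mul]
    refine Units.ext ?_
    rw [absPow_val, ideleAbs_of_units fun u => h3.1 u (Set.notMem_empty u),
      Finset.prod_eq_one fun u _ => by rw [infComp_single, Units.val_one, norm_one, one_pow],
      Real.one_rpow, Complex.ofReal_one, Units.val_one]
  · rw [MonoidHom.mul_apply, Units.val_mul, (hval v hv).2, absPow_val, ideleAbs_single_unif,
      normTwist_apply, Real.inv_rpow (Nat.cast_nonneg _), ← Real.rpow_neg (Nat.cast_nonneg _),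
      neg_neg, Complex.ofReal_cpow (Nat.cast_nonneg _), mul_assoc]
    push_cast
    rw [← Complex.cpow_add _ _ (Nat.cast_ne_zero.2 fun h0 => v.ne_bot
      (Ideal.absNorm_eq_zero_iff.1 h0)), neg_add_cancel, Complex.cpow_zero, mul_one]
  rintro χ ⟨hc, hp, ht, hv⟩
  obtain ⟨T₀, hT₀, k₀, hk₀⟩ := exists_level_ker hc
  obtain ⟨T₁, hT₁, k₁, hk₁⟩ := exists_level_ker (χ := χ₀ * absPow K (-((w : ℝ) / 2)))
    (hχ₀.cont.mul (continuous_absPow (-((w : ℝ) / 2))))
  set R := T₀ ∪ T₁ ∪ {v | v.asIdeal ∣ 𝔪}
  have hR : R.Finite := (hT₀.union hT₁).union (Ideal.finite_factors h.ne_bot)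
  refine idele_hom_ext hR (max k₀ k₁) (fun a => ?_) (fun x hx => ?_) fun v hvR => Units.ext ?_
  · rw [hp, MonoidHom.mul_apply, hχ₀.principal_eq, one_mul]
    refine Units.ext ?_
    rw [absPow_val, ideleAbs_principal, Real.one_rpow, Complex.ofReal_one, Units.val_one]
  · obtain ⟨h1, -, h3⟩ := div_infPart_mem hx
    have hw1 : ∀ u, infComp u (x / infPart x) = 1 := fun u => by
      rw [map_div, infComp_infPart, div_self']
    rw [← div_mul_cancel x (infPart x), map_mul, map_mul,
      hk₀ _ (levelSub_anti (Set.subset_union_left.trans Set.subset_union_left) (le_max_left _ _)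
        h1) hw1,
      hk₁ _ (levelSub_anti (Set.subset_union_right.trans Set.subset_union_left) (le_max_right _ _)
        h1) hw1]
    refine congrArg (1 * ·) (Units.ext ?_)
    have e1 := ht _ h3
    have e2 := congrArg Units.val (htype _ h3)
    rw [Units.val_mul, typeChar_val, Units.val_one] at e2
    rw [infType_eq hw h3] at e1
    rw [MonoidHom.mul_apply, Units.val_mul, absPow_val]
    have hA : ((ideleAbs K (infPart x) ^ ((w : ℝ) / 2) : ℝ) : ℂ) ≠ 0 :=
      Complex.ofReal_ne_zero.2 (Real.rpow_pos_of_pos (ideleAbs_pos _) _).ne'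
    refine mul_right_cancel₀ (mul_ne_zero (right_ne_zero_of_mul_eq_one e2) hA) ?_
    rw [e1, mul_mul_mul_comm, e2, ← Complex.ofReal_mul, ← Real.rpow_add (ideleAbs_pos _),
      neg_add_cancel, Real.rpow_zero, Complex.ofReal_one, one_mul]
  · have hvm : ¬v.asIdeal ∣ 𝔪 := fun hd => hvR (Or.inr hd)
    rw [(hv v hvm).2, MonoidHom.mul_apply, Units.val_mul, (hval v hvm).2, absPow_val,
      ideleAbs_single_unif, normTwist_apply, Real.inv_rpow (Nat.cast_nonneg _),
      ← Real.rpow_neg (Nat.cast_nonneg _), neg_neg, Complex.ofReal_cpow (Nat.cast_nonneg _),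
      mul_assoc]
    push_cast
    rw [← Complex.cpow_add _ _ (Nat.cast_ne_zero.2 fun h0 => v.ne_bot
      (Ideal.absNorm_eq_zero_iff.1 h0)), neg_add_cancel, Complex.cpow_zero, mul_one]

end FA.AlgHecke

end
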