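import Fermat.Agent.AlgebraicHecke.Basic

/-!
# The L-series of algebraic characters

`∑ f (I) N I ^ (-s)` is the L-series of the unitary part shifted by `w / 2`.
-/

set_option autoImplicit false
set_option linter.unusedSectionVars false

noncomputable section

open NumberField IsDedekindDomain Ideal Filter Topology
open FA.Hecke (IsRayChar IsNontrivial heckeL lHom lHom_apply exists_heckeG HasMean
  eq_one_of_not_isNontrivial)
open FA.HeckeTorus (IsTorusChar Unimod)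
open FA.IdeleClass (normTwist normTwist_apply exists_entire_of_ne)
open scoped nonZeroDivisors Classical

namespace FA.AlgHecke

variable {K : Type*} [Field K] [NumberField K] {𝔪 : Ideal (𝓞 K)} {n : (K →+* ℂ) → ℤ}
  {f : Ideal (𝓞 K) →* ℂ} {w : ℤ}

/-- Off `𝔪` the character is an integral power of the norm. -/
def IsNormPower (f : Ideal (𝓞 K) →* ℂ) : Prop :=
  ∃ a : ℤ, ∀ I : Ideal (𝓞 K), I ≠ ⊥ → f I ≠ 0 → f I = ((absNorm I : ℕ) : ℂ) ^ a

theorem natCast_absNorm_ne_zero {I : Ideal (𝓞 K)} (hI : I ≠ ⊥) :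
    ((absNorm I : ℕ) : ℂ) ≠ 0 := Nat.cast_ne_zero.2 (absNorm_eq_zero_iff.not.2 hI)

theorem lHom_shift (f : Ideal (𝓞 K) →* ℂ) (z s : ℂ) (I : (Ideal (𝓞 K))⁰) :
    lHom (normTwist f (-z)) (s - z) I = f I.1 * ((absNorm I.1 : ℕ) : ℂ) ^ (-s) := by
  rw [lHom_apply, normTwist_apply, mul_assoc]
  refine congrArg (f I.1 * ·) ?_
  show _ * ((absNorm I.1 : ℕ) : ℂ) ^ (-(s - z)) = _
  rw [← Complex.cpow_add _ _ (natCast_absNorm_ne_zero (nonZeroDivisors.coe_ne_zero I))]
  congr 1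
  ring

/-- **The sum of the series is the shifted L-series of the unitary part.** -/
theorem IsAlgChar.hasSum (h : IsAlgChar 𝔪 n f) (hw : IsPure n w) {s : ℂ}
    (hs : 1 + (w : ℝ) / 2 < s.re) :
    HasSum (fun I : (Ideal (𝓞 K))⁰ => f I.1 * ((absNorm I.1 : ℕ) : ℂ) ^ (-s))
      (heckeL (normTwist f (-((w : ℂ) / 2))) (s - (w : ℂ) / 2)) := by
  have hs' : 1 < (s - (w : ℂ) / 2).re := by simp; linarith
  simp_rw [← lHom_shift f ((w : ℂ) / 2) s]
  exact ((h.torus hw).unimod.summable_lHom hs').of_norm.hasSum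

/-- Unless it is a norm power, a shift of the unitary part is not trivial. -/
theorem IsAlgChar.nontrivial_of_not_normPower (h : IsAlgChar 𝔪 n f) (hw : IsPure n w)
    (hne : ¬IsNormPower f) :
    ((0 : InfinitePlace K → ℝ) ≠ 0 ∨ kOf n ≠ 0) ∨
      IsNontrivial (normTwist f (-((w : ℂ) / 2))) := by
  by_contra hh
  obtain ⟨hk, hnt⟩ := not_or.1 hh
  obtain ⟨σ₀⟩ : Nonempty (K →+* ℂ) := inferInstance
  have hk0 : kOf n = 0 := not_not.1 (not_or.1 hk).2
  have heq : ∀ σ : K →+* ℂ, n σ = n (ComplexEmbedding.conjugate σ) := fun σ => by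
    by_cases hσ : ComplexEmbedding.IsReal σ
    · rw [ComplexEmbedding.isReal_iff.1 hσ]
    have hv : InfinitePlace.IsComplex (InfinitePlace.mk σ) :=
      InfinitePlace.isComplex_mk_iff.2 hσ
    have h0 : n (InfinitePlace.mk σ).embedding =
        n (ComplexEmbedding.conjugate (InfinitePlace.mk σ).embedding) :=
      sub_eq_zero.1 (congrFun hk0 ⟨_, hv⟩)
    rcases InfinitePlace.embedding_mk_eq σ with e | e
    · rwa [e] at h0
    · rw [e, show ComplexEmbedding.conjugate (ComplexEmbedding.conjugate σ) = σ from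
        star_star σ] at h0
      exact h0.symm
  have hwa : w = 2 * n σ₀ := by
    rw [← hw σ₀, ← heq σ₀]; ring
  refine hne ⟨n σ₀, fun I hI h0 => ?_⟩
  have h1 := eq_one_of_not_isNontrivial hnt hI
    ((h.torus hw).ne_zero_iff I hI |>.2 ((h.ne_zero_iff I hI).1 h0))
  rw [normTwist_apply, Complex.cpow_neg,
    mul_inv_eq_one₀ (Complex.cpow_ne_zero_iff.2 (Or.inl (natCast_absNorm_ne_zero hI)))] at h1
  rw [h1, ← Complex.cpow_intCast, hwa]
  congr 1
  push_cast
  ring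

/-- **Entire, without zeros on `1 + w / 2 ≤ re s`.** -/
theorem IsAlgChar.exists_entire (h : IsAlgChar 𝔪 n f) (hw : IsPure n w) (hne : ¬IsNormPower f) :
    ∃ E : ℂ → ℂ, Differentiable ℂ E ∧
      (∀ s : ℂ, 1 + (w : ℝ) / 2 < s.re →
        HasSum (fun I : (Ideal (𝓞 K))⁰ => f I.1 * ((absNorm I.1 : ℕ) : ℂ) ^ (-s)) (E s)) ∧
      ∀ s : ℂ, 1 + (w : ℝ) / 2 ≤ s.re → E s ≠ 0 := by
  obtain ⟨E, hE, hE', hE0⟩ :=
    exists_entire_of_ne (h.torus hw) (h.nontrivial_of_not_normPower hw hne)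
  refine ⟨fun s => E (s - (w : ℂ) / 2), hE.comp (differentiable_id.sub_const _), fun s hs => ?_,
    fun s hs => hE0 _ (by simp; linarith)⟩
  show HasSum _ (E (s - (w : ℂ) / 2))
  rw [← hE' _ (by simp; linarith)]
  exact h.hasSum hw hs

/-- **A norm power has a pole at `1 + w / 2`.** -/
theorem IsAlgChar.not_entire_of_normPower (h : IsAlgChar 𝔪 n f) (hw : IsPure n w)
    (hp : IsNormPower f) :
    ¬∃ E : ℂ → ℂ, Differentiable ℂ E ∧ ∀ s : ℂ, 1 + (w : ℝ) / 2 < s.re →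
      HasSum (fun I : (Ideal (𝓞 K))⁰ => f I.1 * ((absNorm I.1 : ℕ) : ℂ) ^ (-s)) (E s) := by
  rintro ⟨E, hE, hE'⟩
  obtain ⟨a, ha⟩ := hp
  set g := normTwist f (-((w : ℂ) / 2)) with hg
  have ht := h.torus hw
  have hone : ∀ I : Ideal (𝓞 K), I ≠ ⊥ → g I ≠ 0 → g I = 1 := fun I hI h0 => by
    have hN : 0 < absNorm I := Nat.pos_of_ne_zero (absNorm_eq_zero_iff.not.2 hI)
    have h1 := ha I hI ((h.ne_zero_iff I hI).2 ((ht.ne_zero_iff I hI).1 h0))
    have h2 : g I = ((((absNorm I : ℕ) : ℝ) ^ ((a : ℝ) - (w : ℝ) / 2) : ℝ) : ℂ) := by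
      rw [hg, normTwist_apply, h1, ← Complex.cpow_intCast,
        ← Complex.cpow_add _ _ (natCast_absNorm_ne_zero hI), Complex.ofReal_cpow (Nat.cast_nonneg _)]
      push_cast
      ring_nf
    have h3 := ht.norm_eq_one hI h0
    rw [h2, Complex.norm_real, Real.norm_of_nonneg (Real.rpow_nonneg (Nat.cast_nonneg _) _)] at h3
    rw [h2, h3, Complex.ofReal_one]
  have hr : IsRayChar 𝔪 g := ⟨ht.ne_bot, ht.ne_zero_iff, fun x hx hx1 hx2 => by
    refine hone _ (fun e => hx (Ideal.span_singleton_eq_bot.1 e)) ?_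
    rw [ht.ray x ⟨hx, hx1, hx2⟩]
    exact FA.HeckeTorus.infChar_ne_zero (FA.HeckeTorus.norm_intEmb_ne_zero hx)⟩
  have hnt : ¬IsNontrivial g := fun ⟨I, hI, h0, h1⟩ => h1 (hone I hI h0)
  obtain ⟨G, hG, -, hG'⟩ := exists_heckeG hr
  have he : G = fun s : ℂ => (s - 1) * E (s + (w : ℂ) / 2) :=
    FA.PrimeIdeal.eq_of_eq_halfPlane hG
      ((differentiable_id.sub_const 1).mul (hE.comp (differentiable_id.add_const _))) fun s hs => by
        have hs' : 1 + (w : ℝ) / 2 < (s + (w : ℂ) / 2).re := by simp; linarith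
        have h4 := (h.hasSum hw hs').unique (hE' _ hs')
        rw [add_sub_cancel_right] at h4
        rw [← hG' s hs, ← h4]
  have h5 := hr.heckeG_ne_zero hnt hG hG' (s := 1) (by simp)
  rw [he] at h5
  simp at h5

/-- **The normalised values at the primes have mean `0`.** -/
theorem IsAlgChar.hasMean_zero (h : IsAlgChar 𝔪 n f) (hw : IsPure n w) (hne : ¬IsNormPower f) :
    HasMean (fun v : HeightOneSpectrum (𝓞 K) =>
      f v.asIdeal * ((absNorm v.asIdeal : ℕ) : ℂ) ^ (-((w : ℂ) / 2))) 0 := by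
  have hcase := h.nontrivial_of_not_normPower hw hne
  obtain ⟨E, hE, hE', hE0⟩ := exists_entire_of_ne (h.torus hw) hcase
  obtain ⟨E', hE₂, hE₂', hE₂0⟩ := exists_entire_of_ne (h.torus hw).conj
    (hcase.imp (Or.imp neg_ne_zero.2 neg_ne_zero.2) IsNontrivial.conj)
  exact (h.torus hw).unimod.hasMean_zero hE hE' hE₂ hE₂' hE0 hE₂0

end FA.AlgHecke

end
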