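import Fermat.Agent.AlgebraicHecke.Galois

/-!
# The values of algebraic characters

They have absolute value `N ^ (w / 2)` and lie in one number field, whose embeddings carry them to
the algebraic characters of the permuted types.
-/

set_option autoImplicit false
set_option linter.unusedSectionVars false

noncomputable section

open NumberField NumberField.InfinitePlace IntermediateField Module Ideal
open FA.Hecke (IsRayElt ray_pow unitCount unitCount_pos coprimeIdeals RayClassGroup rayClass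
  rayClass_eq_iff rayClass_surjective finite_rayClassGroup)
open FA.IdeleClass (normTwist normTwist_apply)
open scoped nonZeroDivisors Classical

namespace FA.AlgHecke

variable {K : Type*} [Field K] [NumberField K] {𝔪 : Ideal (𝓞 K)} {n : (K →+* ℂ) → ℤ}
  {f : Ideal (𝓞 K) →* ℂ}

theorem IsAlgChar.eq_zero_of_not (h : IsAlgChar 𝔪 n f) {I : Ideal (𝓞 K)} (hI : I ≠ ⊥)
    (hc : ¬I ⊔ 𝔪 = ⊤) : f I = 0 :=
  not_not.1 fun h0 => hc ((h.ne_zero_iff I hI).1 h0)

/-- **The absolute values.** -/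
theorem IsAlgChar.norm_eq (h : IsAlgChar 𝔪 n f) {w : ℤ} (hw : IsPure n w) {I : Ideal (𝓞 K)}
    (hI : I ≠ ⊥) (h0 : f I ≠ 0) : ‖f I‖ = ((absNorm I : ℕ) : ℝ) ^ ((w : ℝ) / 2) := by
  have hN : 0 < absNorm I := Nat.pos_of_ne_zero (absNorm_eq_zero_iff.not.2 hI)
  have h1 := (h.torus hw).norm_eq_one hI (by
    rw [normTwist_apply]
    exact mul_ne_zero h0 (Complex.cpow_ne_zero_iff.2 (Or.inl (Nat.cast_ne_zero.2 hN.ne'))))
  rw [normTwist_apply, norm_mul, Complex.norm_natCast_cpow_of_pos hN,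
    show (-((w : ℂ) / 2)).re = -((w : ℝ) / 2) by simp, Real.rpow_neg (Nat.cast_nonneg _),
    mul_inv_eq_one₀ (Real.rpow_pos_of_pos (Nat.cast_pos.2 hN) _).ne'] at h1
  exact h1

theorem typeVal_mem (n : (K →+* ℂ) → ℤ) (x : K) : typeVal n x ∈ galClosure K :=
  prod_mem fun σ _ => zpow_mem ((embEquiv K σ x).2) (n σ)

/-- Some power of a value lies in the normal closure. -/
theorem IsAlgChar.exists_pow_mem (h : IsAlgChar 𝔪 n f) {I : Ideal (𝓞 K)} (hI : I ≠ ⊥)
    (hc : I ⊔ 𝔪 = ⊤) : ∃ M, 0 < M ∧ f I ^ M ∈ galClosure K := by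
  let I₀ : (Ideal (𝓞 K))⁰ := ⟨I, mem_nonZeroDivisors_iff_ne_zero.mpr hI⟩
  have h1 : ClassGroup.mk0 (I₀ ^ classNumber K) = 1 := by
    rw [_root_.map_pow, classNumber, pow_card_eq_one]
  obtain ⟨x, hx⟩ := (ClassGroup.mk0_eq_one_iff (SetLike.coe_mem (I₀ ^ classNumber K))).mp h1
  have hx' : I ^ classNumber K = Ideal.span {x} := hx
  have hx0 : x ≠ 0 := fun h0 => pow_ne_zero (classNumber K) hI (by rw [hx', h0]; simp)
  have hcx : Ideal.span {x} ⊔ 𝔪 = ⊤ := by
    rw [← hx', ← Ideal.isCoprime_iff_sup_eq]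
    exact (Ideal.isCoprime_iff_sup_eq.mpr hc).pow_left
  refine ⟨classNumber K * (2 * unitCount 𝔪),
    Nat.mul_pos (classNumber_pos K) (Nat.mul_pos two_pos (unitCount_pos h.ne_bot)), ?_⟩
  rw [← _root_.map_pow, pow_mul, hx', Ideal.span_singleton_pow,
    h.ray _ (ray_pow h.ne_bot hx0 hcx)]
  exact typeVal_mem n _

/-- **The values lie in a number field.** -/
theorem IsAlgChar.exists_valueField (h : IsAlgChar 𝔪 n f) :
    ∃ E : IntermediateField ℚ ℂ, FiniteDimensional ℚ E ∧ galClosure K ≤ E ∧ ∀ I, f I ∈ E := by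
  have := finite_rayClassGroup h.ne_bot
  choose J hJ using rayClass_surjective h.ne_bot
  set S : Set ℂ := Set.range fun γ : RayClassGroup 𝔪 => f (J γ).1.1 with hS
  have hint : ∀ z ∈ S, IsIntegral ℚ z := by
    rintro _ ⟨γ, rfl⟩
    obtain ⟨M, hM, hmem⟩ := h.exists_pow_mem (nonZeroDivisors.coe_ne_zero (J γ).1) (J γ).2
    exact IsIntegral.of_pow hM
      ((Algebra.IsIntegral.isIntegral (⟨_, hmem⟩ : galClosure K)).map (galClosure K).val)
  haveI : FiniteDimensional ℚ (adjoin ℚ S) := IntermediateField.finiteDimensional_adjoin hint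
  refine ⟨galClosure K ⊔ adjoin ℚ S, inferInstance, le_sup_left, fun I => ?_⟩
  by_cases hI : I = ⊥
  · rcases eq_or_ne (f I) 0 with h0 | h0
    · rw [h0]; exact zero_mem _
    · have h1 : f I * f I = f I * 1 := by rw [← map_mul, hI, Ideal.bot_mul, mul_one]
      rw [mul_left_cancel₀ h0 h1]
      exact one_mem _
  by_cases hc : I ⊔ 𝔪 = ⊤
  · set I' : coprimeIdeals 𝔪 := ⟨⟨I, mem_nonZeroDivisors_iff_ne_zero.mpr hI⟩, hc⟩
    obtain ⟨a, b, ha, hb, he⟩ := (rayClass_eq_iff h.ne_bot).1 (hJ (rayClass h.ne_bot I'))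
    have he' := congrArg f he
    rw [map_mul, map_mul, h.ray a ha, h.ray b hb] at he'
    have hb0 := typeVal_ne_zero n (RingOfIntegers.coe_ne_zero_iff.mpr hb.1)
    rw [show f I = typeVal n (a : K) * f (J (rayClass h.ne_bot I')).1.1 / typeVal n (b : K) by
      rw [he', mul_div_cancel_left₀ _ hb0]]
    exact div_mem (mul_mem ((le_sup_left : galClosure K ≤ _) (typeVal_mem n _))
      ((le_sup_right : adjoin ℚ S ≤ _) (IntermediateField.subset_adjoin ℚ S ⟨_, rfl⟩)))
      ((le_sup_left : galClosure K ≤ _) (typeVal_mem n _))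
  · rw [h.eq_zero_of_not hI hc]; exact zero_mem _

/-- An embedding, into a field containing the normal closure. -/
def embInto {E : IntermediateField ℚ ℂ} (hE : galClosure K ≤ E) (σ : K →+* ℂ) : K →+* E :=
  σ.codRestrict E fun x => hE ((embEquiv K σ x).2)

/-- **The conjugates are algebraic of the permuted types.** -/
theorem IsAlgChar.exists_conjugate (h : IsAlgChar 𝔪 n f) {E : IntermediateField ℚ ℂ}
    (hE : galClosure K ≤ E) (hf : ∀ I, f I ∈ E) (φ : E →+* ℂ) :
    ∃ (n' : (K →+* ℂ) → ℤ) (f' : Ideal (𝓞 K) →* ℂ), IsAlgChar 𝔪 n' f' ∧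
      (∀ I, f' I = φ ⟨f I, hf I⟩) ∧ ∀ σ, n' (φ.comp (embInto hE σ)) = n σ := by
  have hinj : Function.Injective fun σ : K →+* ℂ => φ.comp (embInto hE σ) := fun σ τ e =>
    RingHom.ext fun x => congrArg Subtype.val (φ.injective (RingHom.congr_fun e x))
  set e : (K →+* ℂ) ≃ (K →+* ℂ) := Equiv.ofBijective _
    ((Finite.injective_iff_bijective).1 hinj) with he
  let f' : Ideal (𝓞 K) →* ℂ :=
    { toFun := fun I => φ ⟨f I, hf I⟩
      map_one' := by rw [show (⟨f 1, hf 1⟩ : E) = 1 from Subtype.ext (map_one f), map_one]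
      map_mul' := fun I J => by
        rw [← map_mul φ]
        exact congrArg φ (Subtype.ext (map_mul f I J)) }
  refine ⟨n ∘ e.symm, f', ⟨h.ne_bot, fun I hI => ?_, fun x hx => ?_⟩, fun I => rfl, fun σ =>
    congrArg n (e.symm_apply_apply σ)⟩
  · rw [← h.ne_zero_iff I hI]
    refine not_congr ⟨fun h0 => congrArg Subtype.val ((map_eq_zero φ).1 h0), fun h0 => ?_⟩
    exact (map_eq_zero φ).2 (Subtype.ext h0)
  · have hz : (⟨f (Ideal.span {x}), hf _⟩ : E) =
        ∏ σ : K →+* ℂ, embInto hE σ (x : K) ^ n σ := by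
      refine Subtype.ext ?_
      show f (Ideal.span {x}) = E.val (∏ σ : K →+* ℂ, embInto hE σ (x : K) ^ n σ)
      rw [h.ray x hx, map_prod, typeVal]
      exact Finset.prod_congr rfl fun σ _ => by rw [map_zpow₀]; rfl
    show φ ⟨f (Ideal.span {x}), hf _⟩ = _
    rw [hz, map_prod, typeVal]
    refine Fintype.prod_equiv e _ _ fun σ => ?_
    rw [map_zpow₀, Function.comp_apply, e.symm_apply_apply]
    rfl

end FA.AlgHecke

end
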